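/-
Assembly for statement S10: a `FreyPackage` with exponent `p` cannot exist as soon as
Fermat's Last Theorem is known for the exponent `p`; the latter follows, for a prime `p ≠ 2`,
from
* case I (`p ∣ a * b * c` for every coprime solution; Sophie Germain),
* the ring of integers of the `p`-th cyclotomic field being a PID,
* Kummer's lemma for `p` (units congruent to integers mod `p` are `p`-th powers),
via the case II descent (`Fermat.Agent.S11.H81.caseII'`).

Main results (namespace `Fermat.Agent.S10`):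
* `flt_of_ingredients`: no coprime `a`, `b` with `a ^ p + b ^ p = c ^ p` and `a * b * c ≠ 0`.
* `freyPackage_false`: no `FreyPackage` with exponent `p`.
-/
import Mathlib
import Fermat.Prelude.Def_FLTPrelim_FreyPackage
import Fermat.Agent.S11.H81.CaseII

set_option autoImplicit false

open NumberField

namespace Fermat.Agent.S10

/-- Fermat's Last Theorem for a prime exponent `p ≠ 2` and coprime `a`, `b`, from case I, the PID
property of the ring of integers of a `p`-th cyclotomic field and Kummer's lemma. -/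
theorem flt_of_ingredients {p : ℕ} [hp : Fact p.Prime] (hodd : p ≠ 2)
    (K : Type) [Field K] [NumberField K] [IsCyclotomicExtension {p} ℚ K]
    [IsPrincipalIdealRing (𝓞 K)]
    (kummer : ∀ (u : (𝓞 K)ˣ) (n : ℤ), (p : 𝓞 K) ∣ (u : 𝓞 K) - (n : 𝓞 K) →
      ∃ v : (𝓞 K)ˣ, u = v ^ p)
    (caseI : ∀ a b c : ℤ, a ^ p + b ^ p = c ^ p → IsCoprime a b → (p : ℤ) ∣ a * b * c)
    {a b c : ℤ} (h : a ^ p + b ^ p = c ^ p) (hab : IsCoprime a b) (habc : a * b * c ≠ 0) :
    False :=
  Fermat.Agent.S11.H81.caseII' hodd K kummer h hab habc (caseI a b c h hab)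

/-- There is no `FreyPackage` with exponent `p`, given case I, the PID property of the ring of
integers of a `p`-th cyclotomic field and Kummer's lemma. -/
theorem freyPackage_false {p : ℕ} [hp : Fact p.Prime] (hodd : p ≠ 2)
    (K : Type) [Field K] [NumberField K] [IsCyclotomicExtension {p} ℚ K]
    [IsPrincipalIdealRing (𝓞 K)]
    (kummer : ∀ (u : (𝓞 K)ˣ) (n : ℤ), (p : 𝓞 K) ∣ (u : 𝓞 K) - (n : 𝓞 K) →
      ∃ v : (𝓞 K)ˣ, u = v ^ p)
    (caseI : ∀ a b c : ℤ, a ^ p + b ^ p = c ^ p → IsCoprime a b → (p : ℤ) ∣ a * b * c)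
    (P : FreyPackage) (hPp : P.p = p) : False := by
  have hab : IsCoprime P.a P.b := by
    rw [Int.isCoprime_iff_gcd_eq_one]
    have h := P.hgcdab
    have h2 : ((Int.gcd P.a P.b : ℕ) : ℤ) = 1 := by
      rw [← h]
      rfl
    exact_mod_cast h2
  have h : P.a ^ p + P.b ^ p = P.c ^ p := hPp ▸ P.hFLT
  exact flt_of_ingredients hodd K kummer caseI h hab
    (mul_ne_zero (mul_ne_zero P.ha0 P.hb0) P.hc0)

/-- There is no `FreyPackage` with exponent `p`, given case I, the PID property of the rings of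
integers of `p`-th cyclotomic fields and Kummer's lemma (all for arbitrary `p`-th cyclotomic
extensions of `ℚ`; they are applied to `CyclotomicField p ℚ`). -/
theorem freyPackage_false' {p : ℕ} [hp : Fact p.Prime] (hodd : p ≠ 2)
    (pid : ∀ (K : Type) [Field K] [NumberField K] [IsCyclotomicExtension {p} ℚ K],
      IsPrincipalIdealRing (𝓞 K))
    (kummer : ∀ (K : Type) [Field K] [NumberField K] [IsCyclotomicExtension {p} ℚ K]
      (u : (𝓞 K)ˣ) (n : ℤ), (p : 𝓞 K) ∣ (u : 𝓞 K) - (n : 𝓞 K) → ∃ v : (𝓞 K)ˣ, u = v ^ p)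
    (caseI : ∀ a b c : ℤ, a ^ p + b ^ p = c ^ p → IsCoprime a b → (p : ℤ) ∣ a * b * c)
    (P : FreyPackage) (hPp : P.p = p) : False := by
  have hcyc : IsCyclotomicExtension {p} ℚ (CyclotomicField p ℚ) :=
    CyclotomicField.isCyclotomicExtension p ℚ
  have hpid : IsPrincipalIdealRing (𝓞 (CyclotomicField p ℚ)) := pid (CyclotomicField p ℚ)
  exact freyPackage_false hodd (CyclotomicField p ℚ) (kummer (CyclotomicField p ℚ)) caseI P hPp

end Fermat.Agent.S10
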