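import Mathlib
import Fermat.Agent.S10.PID13.Norm
import Fermat.Agent.S10.PID13.Certs

/-!
# The ring of integers of the 13th cyclotomic field is a PID

Minkowski bound `⌊M⌋ ≤ 306`; by the Galois version of the Minkowski criterion it suffices to
exhibit, for every rational prime `ℓ ≤ 306`, one prime `P` over `ℓ` that is either of norm `> 306`
or principal.  The inertia degree of `ℓ ≠ 13` is the order of `ℓ` mod `13`, which leaves only
`ℓ = 3` (norm `27`), `53`, `79`, `131`, `157`, for which explicit generators are given, and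
`ℓ = 13` (the prime `(ζ - 1)`).
-/

open NumberField Ideal Polynomial Real Nat

namespace Fermat.Agent.S10.PID13

variable (K : Type) [Field K] [NumberField K] [IsCyclotomicExtension {13} ℚ K]

theorem minkowski_floor_le :
    ⌊(4 / π) ^ InfinitePlace.nrComplexPlaces K *
      ((Module.finrank ℚ K)! / (Module.finrank ℚ K) ^ (Module.finrank ℚ K) *
        √|(discr K : ℝ)|)⌋₊ ≤ 306 := by
  have hp : Fact (Nat.Prime 13) := ⟨by norm_num⟩
  have h1 : InfinitePlace.nrComplexPlaces K = 6 := by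
    rw [IsCyclotomicExtension.Rat.nrComplexPlaces_eq_totient_div_two 13 K]
    rw [Nat.totient_prime hp.out]
  have h2 : Module.finrank ℚ K = 12 := by
    rw [IsCyclotomicExtension.finrank (n := 13) K
      (Polynomial.cyclotomic.irreducible_rat (by norm_num))]
    rw [Nat.totient_prime hp.out]
  have h3 : discr K = 13 ^ 11 := by
    rw [IsCyclotomicExtension.Rat.discr_prime 13 K]
    norm_num
  rw [h1, h2, h3]
  have hsqrt : √|((13 ^ 11 : ℤ) : ℝ)| < 1338716 := by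
    rw [Real.sqrt_lt' (by norm_num)]
    norm_num
  have hpi : (4 / π) < 4 / 3.1415 := by
    apply div_lt_div_of_pos_left (by norm_num) (by norm_num) Real.pi_gt_d4
  have hpos : (0:ℝ) < 4 / π := by positivity
  have hpow : (4 / π) ^ 6 < (4 / 3.1415) ^ 6 := by
    gcongr
  apply Nat.le_of_lt_succ
  rw [Nat.floor_lt (by positivity)]
  have h12 : ((12 ! : ℕ) : ℝ) = 479001600 := by
    norm_num [Nat.factorial]
  rw [h12]
  calc (4 / π) ^ 6 * (479001600 / ((12:ℕ):ℝ) ^ 12 * √|((13 ^ 11 : ℤ) : ℝ)|)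
      ≤ (4 / 3.1415) ^ 6 * (479001600 / ((12:ℕ):ℝ) ^ 12 * 1338716) := by
        gcongr
    _ < ((306 + 1 : ℕ) : ℝ) := by norm_num

set_option maxRecDepth 100000 in
theorem generic_dec : ∀ ℓ ∈ Finset.Icc 1 306, ℓ.Prime →
    ℓ ∉ ({3, 13, 53, 79, 131, 157} : Finset ℕ) →
    ∀ j ∈ Finset.Icc 1 8, ℓ ^ j ≤ 306 → ((ℓ : ZMod 13)) ^ j ≠ 1 := by
  decide +kernel

theorem generic_prime (ℓ : ℕ) (hℓ : ℓ.Prime) (hℓ306 : ℓ ≤ 306)
    (hne : ℓ ∉ ({3, 13, 53, 79, 131, 157} : Finset ℕ)) (P : Ideal (𝓞 K)) [P.IsPrime]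
    [P.LiesOver (span {(ℓ : ℤ)})] : 306 < ℓ ^ P.inertiaDeg ℤ := by
  have : Fact ℓ.Prime := ⟨hℓ⟩
  have hnd : ¬ ℓ ∣ 13 := by
    intro h
    have := (Nat.prime_dvd_prime_iff_eq hℓ (by norm_num)).mp h
    subst this
    simp at hne
  have hf := IsCyclotomicExtension.Rat.inertiaDeg_eq_of_not_dvd ℓ K P hnd
  have hpos : 0 < P.inertiaDeg ℤ := Ideal.inertiaDeg_pos P ℤ
  by_contra hcon
  replace hcon := not_lt.mp hcon
  have hf8 : P.inertiaDeg ℤ ≤ 8 := by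
    by_contra h9
    replace h9 : 9 ≤ P.inertiaDeg ℤ := by omega
    have : 2 ^ 9 ≤ ℓ ^ P.inertiaDeg ℤ :=
      calc 2 ^ 9 ≤ 2 ^ P.inertiaDeg ℤ := Nat.pow_le_pow_right (by norm_num) h9
        _ ≤ ℓ ^ P.inertiaDeg ℤ := Nat.pow_le_pow_left hℓ.two_le _
    omega
  have h1 : ((ℓ : ZMod 13)) ^ (P.inertiaDeg ℤ) = 1 := by
    rw [hf]; exact pow_orderOf_eq_one _
  exact generic_dec ℓ (Finset.mem_Icc.mpr ⟨hℓ.one_le, hℓ306⟩) hℓ hne _
    (Finset.mem_Icc.mpr ⟨hpos, hf8⟩) hcon h1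

theorem exists_principal_thirteen :
    ∃ P ∈ primesOver (span {((13 : ℕ) : ℤ)}) (𝓞 K), Submodule.IsPrincipal P := by
  have : Fact (Nat.Prime 13) := ⟨by norm_num⟩
  obtain ⟨⟨P, hP1, hP2⟩⟩ := (span {((13 : ℕ) : ℤ)}).nonempty_primesOver (S := 𝓞 K)
  refine ⟨P, ⟨hP1, hP2⟩, ?_⟩
  have hζ := IsCyclotomicExtension.zeta_spec 13 ℚ K
  rw [IsCyclotomicExtension.Rat.eq_span_zeta_sub_one_of_liesOver' 13 K hζ P]
  exact ⟨⟨_, rfl⟩⟩

theorem exists_principal_three (x : 𝓞 K) (hx : absNorm (span {x}) = 27) :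
    ∃ P ∈ primesOver (span {((3 : ℕ) : ℤ)}) (𝓞 K), Submodule.IsPrincipal P := by
  have hne : span {x} ≠ ⊤ := by
    intro h
    rw [h, absNorm_top] at hx
    norm_num at hx
  obtain ⟨Q, hQmax, hle⟩ := Ideal.exists_le_maximal _ hne
  have hQp : Q.IsPrime := hQmax.isPrime
  have h27 : ((27 : ℕ) : 𝓞 K) ∈ Q := hle (hx ▸ absNorm_mem _)
  have h3 : ((3 : ℕ) : 𝓞 K) ∈ Q := by
    have : ((3 : ℕ) : 𝓞 K) ^ 3 ∈ Q := by
      convert h27 using 1
      norm_num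
    exact hQp.mem_of_pow_mem 3 this
  have hf3 : Fact (Nat.Prime 3) := ⟨Nat.prime_three⟩
  have hlo : Q.LiesOver (span {((3 : ℕ) : ℤ)}) := by
    rw [liesOver_iff]
    refine IsMaximal.eq_of_le (Int.ideal_span_isMaximal_of_prime 3) IsPrime.ne_top' ?_
    rw [span_singleton_le_iff_mem, mem_comap, algebraMap_int_eq, map_natCast]
    exact h3
  have hdeg : Q.inertiaDeg ℤ = 3 := by
    rw [IsCyclotomicExtension.Rat.inertiaDeg_eq_of_not_dvd (m := 13) 3 K Q (by norm_num)]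
    exact orderOf_eq_prime (by decide) (by decide)
  have hnorm : absNorm Q = 27 := by
    rw [← Ideal.pow_inertiaDeg 3 Q, hdeg]
    norm_num
  have heq : span {x} = Q :=
    eq_of_le_of_absNorm_eq K hle (by rw [hx, hnorm]) (by rw [hx]; norm_num)
  exact ⟨Q, ⟨hQp, hlo⟩, ⟨x, heq.symm⟩⟩


omit [NumberField K] [IsCyclotomicExtension {13} ℚ K] in
/-- `Φ₁₃(ζ) = 0` in explicit form. -/
theorem cyclo_eq_zero {ζ : K} (hζ : IsPrimitiveRoot ζ 13) :
    1 + ζ + ζ ^ 2 + ζ ^ 3 + ζ ^ 4 + ζ ^ 5 + ζ ^ 6 + ζ ^ 7 + ζ ^ 8 + ζ ^ 9 + ζ ^ 10 + ζ ^ 11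
      + ζ ^ 12 = 0 := by
  have h := hζ.geom_sum_eq_zero (by norm_num : 1 < 13)
  simpa [Finset.sum_range_succ] using h

/-- Range form of the norm criterion for `p = 13`. -/
theorem absNorm_span_aeval_range {ζ : K} (hζ : IsPrimitiveRoot ζ 13) (f : ℤ[X]) (c : ℕ)
    (F : ℕ → K) (hF : ∀ k, aeval (ζ ^ (k + 1)) f = F k)
    (h : ∏ k ∈ Finset.range 12, F k = (c : K)) :
    absNorm (span {aeval hζ.toInteger f}) = c := by
  have hp : Fact (Nat.Prime 13) := ⟨by norm_num⟩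
  have h' := absNorm_span_aeval K hζ f (c : ℤ) (by
    rw [show Finset.Icc 1 (13 - 1) = Finset.Ico 1 13 from rfl, Finset.prod_Ico_eq_prod_range]
    rw [show 13 - 1 = 12 from rfl, Int.cast_natCast, ← h]
    refine Finset.prod_congr rfl (fun k _ => ?_)
    rw [add_comm 1 k, hF])
  simpa using h'

variable {K} in
theorem absNorm_53 {ζ : K} (hζ : IsPrimitiveRoot ζ 13) :
    absNorm (span {aeval hζ.toInteger (1 + X + X ^ 3 : ℤ[X])}) = 53 :=
  absNorm_span_aeval_range K hζ _ 53 (fun k => 1 + ζ ^ (k + 1) + (ζ ^ (k + 1)) ^ 3)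
    (fun k => by simp) (by exact_mod_cast prod_eq_53 ζ (cyclo_eq_zero K hζ))

variable {K} in
theorem absNorm_27 {ζ : K} (hζ : IsPrimitiveRoot ζ 13) :
    absNorm (span {aeval hζ.toInteger (1 + X - X ^ 3 : ℤ[X])}) = 27 :=
  absNorm_span_aeval_range K hζ _ 27 (fun k => 1 + ζ ^ (k + 1) - (ζ ^ (k + 1)) ^ 3)
    (fun k => by simp) (by exact_mod_cast prod_eq_27 ζ (cyclo_eq_zero K hζ))

variable {K} in
theorem absNorm_131 {ζ : K} (hζ : IsPrimitiveRoot ζ 13) :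
    absNorm (span {aeval hζ.toInteger (1 - X - X ^ 3 : ℤ[X])}) = 131 :=
  absNorm_span_aeval_range K hζ _ 131 (fun k => 1 - ζ ^ (k + 1) - (ζ ^ (k + 1)) ^ 3)
    (fun k => by simp) (by exact_mod_cast prod_eq_131 ζ (cyclo_eq_zero K hζ))

variable {K} in
theorem absNorm_79 {ζ : K} (hζ : IsPrimitiveRoot ζ 13) :
    absNorm (span {aeval hζ.toInteger (1 + X - X ^ 4 : ℤ[X])}) = 79 :=
  absNorm_span_aeval_range K hζ _ 79 (fun k => 1 + ζ ^ (k + 1) - (ζ ^ (k + 1)) ^ 4)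
    (fun k => by simp) (by exact_mod_cast prod_eq_79 ζ (cyclo_eq_zero K hζ))

variable {K} in
theorem absNorm_157 {ζ : K} (hζ : IsPrimitiveRoot ζ 13) :
    absNorm (span {aeval hζ.toInteger (1 - X + X ^ 2 + X ^ 4 : ℤ[X])}) = 157 :=
  absNorm_span_aeval_range K hζ _ 157
    (fun k => 1 - ζ ^ (k + 1) + (ζ ^ (k + 1)) ^ 2 + (ζ ^ (k + 1)) ^ 4)
    (fun k => by simp) (by exact_mod_cast prod_eq_157 ζ (cyclo_eq_zero K hζ))

end Fermat.Agent.S10.PID13

namespace Fermat.Agent.S10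

open Fermat.Agent.S10.PID13 in
/-- The ring of integers of the 13th cyclotomic field is a principal ideal domain. -/
theorem pid_thirteen (K : Type) [Field K] [NumberField K] [IsCyclotomicExtension {13} ℚ K] :
    IsPrincipalIdealRing (𝓞 K) := by
  have : IsGalois ℚ K := IsCyclotomicExtension.isGalois {13} ℚ K
  have hζ := IsCyclotomicExtension.zeta_spec 13 ℚ K
  apply RingOfIntegers.isPrincipalIdealRing_of_isPrincipal_of_lt_or_isPrincipal_of_mem_primesOver_of_mem_Icc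
  intro ℓ hℓmem hℓ
  have hM := minkowski_floor_le K
  have hℓ306 : ℓ ≤ 306 := (Finset.mem_Icc.mp hℓmem).2.trans hM
  by_cases hsp : ℓ ∈ ({3, 13, 53, 79, 131, 157} : Finset ℕ)
  · simp only [Finset.mem_insert, Finset.mem_singleton] at hsp
    rcases hsp with rfl | rfl | rfl | rfl | rfl | rfl
    · obtain ⟨P, hP, hprin⟩ := exists_principal_three K _ (absNorm_27 hζ)
      exact ⟨P, hP, Or.inr hprin⟩
    · obtain ⟨P, hP, hprin⟩ := exists_principal_thirteen K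
      exact ⟨P, hP, Or.inr hprin⟩
    · obtain ⟨P, hP, hprin⟩ := exists_principal_of_absNorm_prime K hℓ _ (absNorm_53 hζ)
      exact ⟨P, hP, Or.inr hprin⟩
    · obtain ⟨P, hP, hprin⟩ := exists_principal_of_absNorm_prime K hℓ _ (absNorm_79 hζ)
      exact ⟨P, hP, Or.inr hprin⟩
    · obtain ⟨P, hP, hprin⟩ := exists_principal_of_absNorm_prime K hℓ _ (absNorm_131 hζ)
      exact ⟨P, hP, Or.inr hprin⟩
    · obtain ⟨P, hP, hprin⟩ := exists_principal_of_absNorm_prime K hℓ _ (absNorm_157 hζ)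
      exact ⟨P, hP, Or.inr hprin⟩
  · have : Fact ℓ.Prime := ⟨hℓ⟩
    obtain ⟨⟨P, hP1, hP2⟩⟩ := (span {(ℓ : ℤ)}).nonempty_primesOver (S := 𝓞 K)
    exact ⟨P, ⟨hP1, hP2⟩, Or.inl (lt_of_le_of_lt hM (generic_prime K ℓ hℓ hℓ306 hsp P))⟩

end Fermat.Agent.S10
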