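import Mathlib
import Fermat.Agent.S11.PID.Generic

/-!
# The ring of integers of `ℚ(ζ_7)` is a principal ideal domain

Minkowski bound `< 5`; the primes `ℓ ≤ 4` other than `7` either have `ℓ ^ f > 4`
(`f` the order of `ℓ` modulo `7`) or are handled by explicit elements whose norm is `±ℓ ^ f`.
-/

set_option autoImplicit false
set_option linter.unusedTactic false
set_option linter.unreachableTactic false
set_option linter.unusedSimpArgs false

namespace Fermat.Agent.S10

open NumberField Polynomial IsCyclotomicExtension Ideal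
open Fermat.Agent.S11.PID

namespace PID

theorem geom_sum_theta_seven (K : Type*) [Field K] [NumberField K]
    [IsCyclotomicExtension {7} ℚ K] [Fact (Nat.Prime 7)] :
    1 + theta 7 K + theta 7 K ^ 2 + theta 7 K ^ 3 + theta 7 K ^ 4 + theta 7 K ^ 5 + theta 7 K ^ 6 = 0 := by
  have h := (zeta_spec 7 ℚ K).toInteger_isPrimitiveRoot.geom_sum_eq_zero (by norm_num)
  simpa [Finset.sum_range_succ] using h

/-- The Minkowski bound of `ℚ(ζ_7)` is smaller than `5`. -/
theorem minkowski_bound_seven (K : Type*) [Field K] [NumberField K]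
    [IsCyclotomicExtension {7} ℚ K] [Fact (Nat.Prime 7)] :
    ⌊(4 / Real.pi) ^ InfinitePlace.nrComplexPlaces K *
      ((Module.finrank ℚ K).factorial / (Module.finrank ℚ K) ^ Module.finrank ℚ K *
        √|(NumberField.discr K : ℝ)|)⌋₊ ≤ 4 := by
  have h1 : InfinitePlace.nrComplexPlaces K = 3 := by
    rw [IsCyclotomicExtension.Rat.nrComplexPlaces_eq_totient_div_two 7 K,
      Nat.totient_prime (by norm_num)]
  have h2 : Module.finrank ℚ K = 6 := by
    rw [IsCyclotomicExtension.finrank (n := 7) K (cyclotomic.irreducible_rat (by norm_num)),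
      Nat.totient_prime (by norm_num)]
  have h3 : NumberField.discr K = -7 ^ 5 := by
    rw [IsCyclotomicExtension.Rat.discr_prime 7 K]
    norm_num
  rw [h1, h2, h3]
  have hpi : (3 : ℝ) < Real.pi := Real.pi_gt_three
  have hsqrt : √|(((-7 ^ 5 : ℤ)) : ℝ)| ≤ 129.65 := by
    rw [Real.sqrt_le_iff]
    constructor
    · norm_num
    · norm_num [abs_of_nonneg]
  have hlt : (4 / Real.pi) ^ 3 * (((6 : ℕ).factorial : ℝ) / ((6 : ℕ) : ℝ) ^ 6 *
      √|(((-7 ^ 5 : ℤ)) : ℝ)|) < 5 := by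
    have hpos : (0 : ℝ) < Real.pi := Real.pi_pos
    calc (4 / Real.pi) ^ 3 * (((6 : ℕ).factorial : ℝ) / ((6 : ℕ) : ℝ) ^ 6 *
          √|(((-7 ^ 5 : ℤ)) : ℝ)|)
        ≤ (4 / 3 : ℝ) ^ 3 * (((6 : ℕ).factorial : ℝ) / ((6 : ℕ) : ℝ) ^ 6 * 129.65) := by
          gcongr
      _ < 5 := by norm_num [Nat.factorial]
  have hfl : ⌊(4 / Real.pi) ^ 3 * (((6 : ℕ).factorial : ℝ) / ((6 : ℕ) : ℝ) ^ 6 *
      √|(((-7 ^ 5 : ℤ)) : ℝ)|)⌋₊ < 5 :=
    (Nat.floor_lt (by positivity)).mpr (by exact_mod_cast hlt)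
  exact Nat.lt_succ_iff.mp hfl

end PID

open PID in
/-- The ring of integers of the `7`-th cyclotomic field is a principal ideal domain. -/
theorem pid_seven (K : Type) [Field K] [NumberField K] [IsCyclotomicExtension {7} ℚ K] :
    IsPrincipalIdealRing (𝓞 K) := by
  have : Fact (Nat.Prime 7) := ⟨by norm_num⟩
  apply RingOfIntegers.isPrincipalIdealRing_of_isPrincipal_of_pow_le_of_mem_primesOver_of_mem_Icc
  intro ℓ hℓmem hℓ P hP hle
  have hM := minkowski_bound_seven K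
  have hℓB : ℓ ≤ 4 := (Finset.mem_Icc.mp hℓmem).2.trans hM
  have : Fact ℓ.Prime := ⟨hℓ⟩
  have : P.IsPrime := hP.1
  have : P.LiesOver (span {(ℓ : ℤ)}) := hP.2
  by_cases h7 : ℓ = 7
  · subst h7
    rw [IsCyclotomicExtension.Rat.eq_span_zeta_sub_one_of_liesOver' 7 K (zeta_spec 7 ℚ K) P]
    exact ⟨⟨_, rfl⟩⟩
  have hndvd : ¬ ℓ ∣ 7 := fun h => h7 ((Nat.prime_dvd_prime_iff_eq hℓ (by norm_num)).mp h)
  have hf := IsCyclotomicExtension.Rat.inertiaDeg_eq_of_not_dvd ℓ K P hndvd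
  exfalso
  have h0 : orderOf ((ℓ : ℕ) : ZMod 7) ≠ 0 := by
    rw [← hf]
    intro h0
    have hN := Ideal.pow_inertiaDeg ℓ P
    rw [h0, pow_zero] at hN
    exact (Ideal.IsPrime.ne_top inferInstance) (Ideal.absNorm_eq_one_iff.mp hN.symm)
  rw [hf] at hle
  have hleB := hle.trans hM
  have hℓ1 : 1 ≤ ℓ := hℓ.one_le
  interval_cases ℓ <;>
    first
      | (exfalso; revert hℓ; norm_num; done)
      | exact absurd hleB (not_le.mpr (lt_pow_orderOf _ _ 4 2 hℓ1 (by decide) h0 (by decide)))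
      | exact absurd hleB (not_le.mpr (lt_pow_orderOf _ _ 4 3 hℓ1 (by decide) h0 (by decide)))
      | exact (h7 rfl).elim

end Fermat.Agent.S10
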